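import Mathlib.Algebra.MvPolynomial.Funext
import Mathlib.Algebra.MvPolynomial.NoZeroDivisors
import Mathlib.Algebra.MvPolynomial.PDeriv
import Mathlib.RingTheory.Polynomial.UniqueFactorization
import Mathlib.Tactic

/-!
# A derivative coprime to a squarefree polynomial

Each irreducible factor of a squarefree `f` has a nonzero derivative in a generic direction, of
smaller degree, so that derivative of `f` has no common factor with `f`.
-/

set_option autoImplicit false

noncomputable section

namespace FA.SquarefreeMulti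

open MvPolynomial

variable {R : Type*} [CommRing R] {n : ℕ}

/-- The derivative in the direction `c`. -/
def dirDeriv (c : Fin n → R) (f : MvPolynomial (Fin n) R) : MvPolynomial (Fin n) R :=
  ∑ i, C (c i) * pderiv i f

theorem dirDeriv_mul (c : Fin n → R) (f g : MvPolynomial (Fin n) R) :
    dirDeriv c (f * g) = dirDeriv c f * g + f * dirDeriv c g := by
  simp only [dirDeriv, Finset.sum_mul, Finset.mul_sum, ← Finset.sum_add_distrib]
  refine Finset.sum_congr rfl fun i _ => ?_
  rw [pderiv_mul]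
  ring

theorem map_dirDeriv {S : Type*} [CommRing S] (φ : R →+* S) (c : Fin n → R)
    (f : MvPolynomial (Fin n) R) : (dirDeriv c f).map φ = dirDeriv (φ ∘ c) (f.map φ) := by
  simp [dirDeriv, map_sum, pderiv_map]

theorem degree_lt_of_coeff_pderiv_ne_zero {f : MvPolynomial (Fin n) R} {i : Fin n}
    {s : Fin n →₀ ℕ} (hs : (pderiv i f).coeff s ≠ 0) :
    (s.sum fun _ e => e) < f.totalDegree := by
  rw [coeff_pderiv] at hs
  have h := le_totalDegree (p := f) (s := s + Finsupp.single i 1)
    (mem_support_iff.mpr fun h => hs (by rw [h, zero_mul]))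
  rw [Finsupp.sum_add_index' (fun _ => rfl) (fun _ _ _ => rfl), Finsupp.sum_single_index rfl] at h
  omega

theorem totalDegree_dirDeriv_lt {c : Fin n → R} {f : MvPolynomial (Fin n) R}
    (h : dirDeriv c f ≠ 0) : (dirDeriv c f).totalDegree < f.totalDegree := by
  have hlt : ∀ s ∈ (dirDeriv c f).support, (s.sum fun _ e => e) < f.totalDegree := fun s hs => by
    obtain ⟨i, -, hi⟩ : ∃ i ∈ Finset.univ, (C (c i) * pderiv i f).coeff s ≠ 0 := by
      refine Finset.exists_ne_zero_of_sum_ne_zero ?_
      rw [← coeff_sum]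
      exact mem_support_iff.mp hs
    rw [coeff_C_mul] at hi
    exact degree_lt_of_coeff_pderiv_ne_zero (right_ne_zero_of_mul hi)
  obtain ⟨s, hs, he⟩ :=
    Finset.exists_mem_eq_sup _ (support_nonempty.2 h) fun s => s.sum fun _ e => e
  exact lt_of_eq_of_lt he (hlt s hs)

/-- A nonconstant polynomial in characteristic zero has a nonzero partial derivative. -/
theorem exists_coeff_pderiv_ne_zero [IsDomain R] [CharZero R] {q : MvPolynomial (Fin n) R}
    (hq : 0 < q.totalDegree) : ∃ i s, (pderiv i q).coeff s ≠ 0 := by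
  obtain ⟨s, hs, he⟩ := Finset.exists_mem_eq_sup q.support
    (support_nonempty.2 fun h => hq.ne' (by rw [h, totalDegree_zero])) fun s => s.sum fun _ e => e
  obtain ⟨i, hi⟩ : ∃ i, s i ≠ 0 := by
    by_contra! h0
    exact hq.ne' (he.trans (Finset.sum_eq_zero fun i _ => h0 i))
  refine ⟨i, s - Finsupp.single i 1, ?_⟩
  rw [coeff_pderiv, tsub_add_cancel_of_le
    (Finsupp.single_le_iff.2 (Nat.one_le_iff_ne_zero.2 hi))]
  exact mul_ne_zero (mem_support_iff.1 hs) (Nat.cast_add_one_ne_zero _)

/-- An integral direction in which none of finitely many nonconstant polynomials has derivative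
zero. -/
theorem exists_direction_ne_zero (s : Finset (MvPolynomial (Fin n) ℚ))
    (hs : ∀ q ∈ s, 0 < q.totalDegree) :
    ∃ c : Fin n → ℤ, ∀ q ∈ s, dirDeriv (fun i => (c i : ℚ)) q ≠ 0 := by
  choose i t ht using fun (q : MvPolynomial (Fin n) ℚ) (hq : 0 < q.totalDegree) =>
    exists_coeff_pderiv_ne_zero (q := q) hq
  set L : (q : MvPolynomial (Fin n) ℚ) → q ∈ s → MvPolynomial (Fin n) ℚ := fun q hq =>
    ∑ j, C ((pderiv j q).coeff (t q (hs q hq))) * X j
  have hL : ∀ q hq, L q hq ≠ 0 := fun q hq h0 => ht q (hs q hq) (by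
    have := congrArg (coeff (Finsupp.single (i q (hs q hq)) 1)) h0
    simpa [L, coeff_sum, coeff_X, Finsupp.single_left_inj] using this)
  have hP : ∏ q ∈ s.attach, L q.1 q.2 ≠ 0 := Finset.prod_ne_zero_iff.mpr fun q _ => hL q.1 q.2
  obtain ⟨y, hy, hy0⟩ : ∃ y ∈ Set.pi Set.univ (fun _ : Fin n => Set.range (Int.cast : ℤ → ℚ)),
      eval y (∏ q ∈ s.attach, L q.1 q.2) ≠ 0 := by
    by_contra! hno
    refine hP (MvPolynomial.funext_set _
      (fun _ => Set.infinite_range_of_injective Int.cast_injective) fun y hy => ?_)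
    rw [hno y hy, map_zero]
  choose z hz using fun j => hy j (Set.mem_univ j)
  refine ⟨z, fun q hq h0 => ?_⟩
  rw [map_prod, Finset.prod_ne_zero_iff] at hy0
  refine hy0 ⟨q, hq⟩ (Finset.mem_attach _ _) ?_
  have h1 := congrArg (coeff (t q (hs q hq))) h0
  simp only [dirDeriv, coeff_sum, coeff_C_mul, coeff_zero, hz] at h1
  simp only [L, map_sum, map_mul, eval_C, eval_X]
  exact (Finset.sum_congr rfl fun j _ => mul_comm _ _).trans h1

/-- **A squarefree polynomial has a directional derivative coprime to it.** -/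
theorem exists_isRelPrime_dirDeriv {f : MvPolynomial (Fin n) ℚ} (hf : Squarefree f) :
    ∃ c : Fin n → ℤ, IsRelPrime f (dirDeriv (fun i => (c i : ℚ)) f) := by
  classical
  have hf0 : f ≠ 0 := hf.ne_zero
  set S := (UniqueFactorizationMonoid.factors f).toFinset
  have hpos : ∀ q ∈ S, 0 < q.totalDegree := fun q hq => by
    have hirr := UniqueFactorizationMonoid.irreducible_of_factor q (Multiset.mem_toFinset.mp hq)
    refine Nat.pos_of_ne_zero fun h0 => hirr.not_isUnit ?_
    rw [totalDegree_eq_zero_iff_eq_C.1 h0]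
    refine (Ne.isUnit fun h => hirr.ne_zero ?_).map C
    rw [totalDegree_eq_zero_iff_eq_C.1 h0, h, map_zero]
  obtain ⟨c, hc⟩ := exists_direction_ne_zero S hpos
  set D := fun g => dirDeriv (fun i => (c i : ℚ)) g
  refine ⟨c, fun d hdf hdD => by_contra fun hd => ?_⟩
  obtain ⟨q, hq, hqd⟩ :=
    WfDvdMonoid.exists_irreducible_factor hd (fun h => hf0 (zero_dvd_iff.mp (h ▸ hdf)))
  obtain ⟨q', hq', hass⟩ :=
    UniqueFactorizationMonoid.exists_mem_factors_of_dvd hf0 hq (hqd.trans hdf)
  have hq'f : q' ∣ f := hass.dvd'.trans (hqd.trans hdf)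
  have hq'D : q' ∣ D f := hass.dvd'.trans (hqd.trans hdD)
  have hirr := UniqueFactorizationMonoid.irreducible_of_factor q' hq'
  obtain ⟨h, rfl⟩ := hq'f
  rw [show D (q' * h) = D q' * h + q' * D h from dirDeriv_mul _ _ _,
    dvd_add_left (dvd_mul_right _ _)] at hq'D
  rcases hirr.prime.dvd_mul.mp hq'D with hd' | hd'
  · obtain ⟨u, hu⟩ := hd'
    have hne : D q' ≠ 0 := hc q' (Multiset.mem_toFinset.mpr hq')
    have hlt := totalDegree_dirDeriv_lt hne
    rw [show dirDeriv (fun i => (c i : ℚ)) q' = q' * u from hu, totalDegree_mul_of_isDomain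
      hirr.ne_zero (right_ne_zero_of_mul (hu ▸ hne))] at hlt
    omega
  · exact hirr.not_isUnit (hf q' (mul_dvd_mul_left q' hd'))

end FA.SquarefreeMulti
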