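import Fermat.Agent.Ekedahl.Bound
import Fermat.Agent.SquarefreeMulti.Derivative
import Mathlib.NumberTheory.PrimeCounting

/-!
# Square divisors of the values

Where `p ^ 2` divides the value and `p` not some partial derivative the coordinate of that
derivative lies in few classes modulo `p ^ 2`; elsewhere `p` divides the value and a derivative
coprime to `f`, which is Ekedahl's bound.
-/

set_option autoImplicit false
set_option linter.style.openClassical false
set_option linter.style.haveILetI false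

noncomputable section

open scoped Classical

namespace FA.SquarefreeMulti

open MvPolynomial FA.ThinSets FA.Ekedahl

variable {n r : ℕ}

/-- The points at which the value has a square divisor `p ^ 2`, `M < p ≤ L`. -/
def squareBad (f : MvPolynomial (Fin n) ℤ) (M L B : ℕ) : Finset (Fin n → ℤ) :=
  (intBox n B).filter fun x => ∃ p : ℕ, p.Prime ∧ M < p ∧ p ≤ L ∧ (p : ℤ) ^ 2 ∣ eval x f

/-- The simple roots of a polynomial modulo `p ^ 2` in an interval. -/
theorem card_simple_roots_le (φ : Polynomial ℤ) {p : ℕ} [hp : Fact p.Prime] (B : ℕ) :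
    ((Finset.Icc (-(B : ℤ)) B).filter fun t =>
      (p : ℤ) ^ 2 ∣ φ.eval t ∧ ¬(p : ℤ) ∣ φ.derivative.eval t).card ≤
      φ.natDegree * (2 * B / p ^ 2 + 1) := by
  set T := (Finset.Icc (-(B : ℤ)) B).filter fun t =>
    (p : ℤ) ^ 2 ∣ φ.eval t ∧ ¬(p : ℤ) ∣ φ.derivative.eval t
  set ψ := φ.map (Int.castRingHom (ZMod p))
  have hψ : ∀ t : ℤ, ψ.eval (t : ZMod p) = ((φ.eval t : ℤ) : ZMod p) := fun t => by
    rw [Polynomial.eval_map, ← eq_intCast (Int.castRingHom (ZMod p)) t,
      Polynomial.eval₂_at_apply, eq_intCast]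
  have hψ' : ∀ t : ℤ, ψ.derivative.eval (t : ZMod p) =
      ((φ.derivative.eval t : ℤ) : ZMod p) := fun t => by
    rw [Polynomial.derivative_map, Polynomial.eval_map, ← eq_intCast (Int.castRingHom (ZMod p)) t,
      Polynomial.eval₂_at_apply, eq_intCast]
  have hsub : T ⊆ ψ.roots.toFinset.biUnion fun c => T.filter fun t : ℤ => (t : ZMod p) = c :=
    fun t ht => by
    obtain ⟨-, h1, h2⟩ := Finset.mem_filter.mp ht
    refine Finset.mem_biUnion.mpr ⟨(t : ZMod p), ?_, Finset.mem_filter.mpr ⟨ht, rfl⟩⟩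
    have hne : ψ ≠ 0 := fun h0 => h2 ((ZMod.intCast_zmod_eq_zero_iff_dvd _ p).mp (by
      rw [← hψ', h0, Polynomial.derivative_zero, Polynomial.eval_zero]))
    rw [Multiset.mem_toFinset, Polynomial.mem_roots hne, Polynomial.IsRoot, hψ,
      ZMod.intCast_zmod_eq_zero_iff_dvd]
    exact (dvd_pow_self _ two_ne_zero).trans h1
  refine (Finset.card_le_card hsub).trans (Finset.card_biUnion_le.trans ?_)
  refine (Finset.sum_le_card_nsmul _ _ (2 * B / p ^ 2 + 1) fun c _ => ?_).trans ?_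
  · rcases Finset.eq_empty_or_nonempty (T.filter fun t : ℤ => (t : ZMod p) = c) with h0 | ⟨t₀, ht₀⟩
    · simp [h0]
    obtain ⟨ht₀, hc₀⟩ := Finset.mem_filter.mp ht₀
    obtain ⟨-, h₀, h₀'⟩ := Finset.mem_filter.mp ht₀
    refine (Finset.card_le_card fun t ht => ?_).trans
      (card_Icc_class_le ((t₀ : ℤ) : ZMod (p ^ 2)) B)
    obtain ⟨ht, hc⟩ := Finset.mem_filter.mp ht
    obtain ⟨hti, h, -⟩ := Finset.mem_filter.mp ht
    refine Finset.mem_filter.mpr ⟨hti, ?_⟩
    rw [ZMod.intCast_eq_intCast_iff_dvd_sub, Nat.cast_pow]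
    have hdvd : (p : ℤ) ∣ t - t₀ :=
      (ZMod.intCast_eq_intCast_iff_dvd_sub t₀ t p).mp (hc₀.trans hc.symm)
    obtain ⟨k, hk⟩ := φ.binomExpansion t₀ (t - t₀)
    rw [add_sub_cancel] at hk
    have h2 : (p : ℤ) ^ 2 ∣ φ.derivative.eval t₀ * (t - t₀) := by
      have e : φ.derivative.eval t₀ * (t - t₀) = φ.eval t - φ.eval t₀ - k * (t - t₀) ^ 2 := by
        rw [hk]; ring
      rw [e]
      exact dvd_sub (dvd_sub h h₀) ((pow_dvd_pow_of_dvd hdvd 2).mul_left _)
    have hcop : IsCoprime ((p : ℤ) ^ 2) (φ.derivative.eval t₀) :=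
      ((Nat.prime_iff_prime_int.mp hp.out).coprime_iff_not_dvd.mpr h₀').pow_left
    rw [← neg_sub]
    exact (hcop.dvd_of_dvd_mul_left h2).neg_right
  · rw [smul_eq_mul]
    exact Nat.mul_le_mul_right _ ((Multiset.toFinset_card_le _).trans
      ((Polynomial.card_roots' _).trans Polynomial.natDegree_map_le))

/-- One coordinate. -/
theorem card_simple_le (f : MvPolynomial (Fin (r + 1)) ℤ) (i : Fin (r + 1)) {p : ℕ}
    [Fact p.Prime] (B : ℕ) :
    ((intBox (r + 1) B).filter fun x =>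
      (p : ℤ) ^ 2 ∣ eval x f ∧ ¬(p : ℤ) ∣ eval x (pderiv i f)).card ≤
      (2 * B + 1) ^ r * (f.totalDegree * (2 * B / p ^ 2 + 1)) := by
  set σ := Equiv.swap 0 i
  set g := rename σ f
  have hσ : ∀ x : Fin (r + 1) → ℤ, eval (x ∘ σ) g = eval x f := fun x => by
    rw [eval_rename]
    congr 2
    ext j
    simp [σ]
  have hσ' : ∀ x : Fin (r + 1) → ℤ, eval (x ∘ σ) (pderiv 0 g) = eval x (pderiv i f) := fun x => by
    rw [show (0 : Fin (r + 1)) = σ i by simp [σ], pderiv_rename σ.injective, eval_rename]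
    congr 2
    ext j
    simp [σ]
  have hle : ((intBox (r + 1) B).filter fun x =>
      (p : ℤ) ^ 2 ∣ eval x f ∧ ¬(p : ℤ) ∣ eval x (pderiv i f)).card ≤
      ((intBox (r + 1) B).filter fun y =>
        (p : ℤ) ^ 2 ∣ eval y g ∧ ¬(p : ℤ) ∣ eval y (pderiv 0 g)).card := by
    refine Finset.card_le_card_of_injOn (· ∘ σ) (fun x hx => ?_)
      fun x _ y _ h => funext fun j => by simpa using congrFun h (σ.symm j)
    obtain ⟨hx, h⟩ := Finset.mem_filter.mp hx
    exact Finset.mem_filter.mpr ⟨mem_intBox.mpr fun j => mem_intBox.mp hx (σ j),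
      by rwa [hσ, hσ']⟩
  refine hle.trans ?_
  rw [card_filter_intBox_succ]
  refine (Finset.sum_le_card_nsmul _ _ (f.totalDegree * (2 * B / p ^ 2 + 1)) fun x _ => ?_).trans_eq
    (by rw [card_intBox, smul_eq_mul])
  set φ := (finSuccEquiv ℤ r g).map (eval x)
  have hφ : φ.natDegree ≤ f.totalDegree := by
    refine Polynomial.natDegree_map_le.trans ?_
    rw [natDegree_finSuccEquiv]
    exact (degreeOf_le_totalDegree _ _).trans (totalDegree_rename_le _ _)
  refine (Finset.card_le_card fun t ht => ?_).trans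
    ((card_simple_roots_le φ (p := p) B).trans (Nat.mul_le_mul_right _ hφ))
  obtain ⟨ht, h1, h2⟩ := Finset.mem_filter.mp ht
  refine Finset.mem_filter.mpr ⟨ht, ?_, ?_⟩
  · rwa [← eval_eq_eval_mv_eval']
  · rwa [Polynomial.derivative_map, FA.LangWeilAll.derivative_finSuccEquiv,
      ← eval_eq_eval_mv_eval']

/-- **Square divisors up to `L`.** -/
theorem exists_squareBad_bound (f : MvPolynomial (Fin (r + 1)) ℤ)
    (hf : Squarefree (f.map (Int.castRingHom ℚ))) :
    ∃ K : ℝ, 0 ≤ K ∧ ∀ M L B : ℕ, 1 ≤ M → 1 ≤ B → ((squareBad f M L B).card : ℝ) ≤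
      K * ((B : ℝ) ^ (r + 1) / M + (B : ℝ) ^ r * ((Nat.primeCounting L : ℝ) + 1)) := by
  obtain ⟨c, hc⟩ := exists_isRelPrime_dirDeriv hf
  set g := dirDeriv c f
  have hfg : IsRelPrime (f.map (Int.castRingHom ℚ)) (g.map (Int.castRingHom ℚ)) := by
    rw [map_dirDeriv]
    exact hc
  obtain ⟨K, hK, hbound⟩ := Ekedahl.exists_bound f g hfg
  set d := f.totalDegree
  refine ⟨K + (r + 1) * d * 3 ^ r * 2, by positivity, fun M L B hM hB => ?_⟩
  set T := (Finset.Ioc M L).filter Nat.Prime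
  set S := fun (p : ℕ) (i : Fin (r + 1)) => (intBox (r + 1) B).filter fun x =>
    (p : ℤ) ^ 2 ∣ eval x f ∧ ¬(p : ℤ) ∣ eval x (pderiv i f)
  have hsub : squareBad f M L B ⊆
      badPoints f g M B ∪ T.biUnion fun p => Finset.univ.biUnion fun i => S p i := fun x hx => by
    obtain ⟨hx, p, hp, hMp, hpL, hd⟩ := Finset.mem_filter.mp hx
    by_cases h : ∀ i, (p : ℤ) ∣ eval x (pderiv i f)
    · refine Finset.mem_union_left _ (Finset.mem_filter.mpr
        ⟨hx, p, hp, hMp, (dvd_pow_self _ two_ne_zero).trans hd, ?_⟩)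
      simp only [g, dirDeriv, map_sum, map_mul]
      exact Finset.dvd_sum fun i _ => (h i).mul_left _
    · push Not at h
      obtain ⟨i, hi⟩ := h
      exact Finset.mem_union_right _ (Finset.mem_biUnion.mpr ⟨p,
        Finset.mem_filter.mpr ⟨Finset.mem_Ioc.mpr ⟨hMp, hpL⟩, hp⟩,
        Finset.mem_biUnion.mpr ⟨i, Finset.mem_univ i, Finset.mem_filter.mpr ⟨hx, hd, hi⟩⟩⟩)
  have hB' : (1 : ℝ) ≤ B := Nat.one_le_cast.mpr hB
  have hp : ∀ p ∈ T, ∀ i, ((S p i).card : ℝ) ≤
      d * 3 ^ r * 2 * ((B : ℝ) ^ (r + 1) * ((p : ℝ) ^ 2)⁻¹ + (B : ℝ) ^ r) := fun p hp i => by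
    haveI : Fact p.Prime := ⟨(Finset.mem_filter.mp hp).2⟩
    calc ((S p i).card : ℝ)
        ≤ (2 * (B : ℝ) + 1) ^ r * ((d : ℝ) * (((2 * B / p ^ 2 : ℕ) : ℝ) + 1)) := by
          exact_mod_cast card_simple_le f i (p := p) B
      _ ≤ (3 * (B : ℝ)) ^ r * ((d : ℝ) * (2 * (B : ℝ) * ((p : ℝ) ^ 2)⁻¹ + 2)) := by
          gcongr
          · linarith
          · exact Nat.cast_div_le.trans_eq (by push_cast; ring)
          · norm_num
      _ = _ := by ring
  have h1 : ((T.biUnion fun p => Finset.univ.biUnion fun i => S p i).card : ℝ) ≤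
      (r + 1) * d * 3 ^ r * 2 *
        ((B : ℝ) ^ (r + 1) / M + (B : ℝ) ^ r * (Nat.primeCounting L : ℝ)) := by
    refine (Nat.cast_le.mpr (Finset.card_biUnion_le.trans
      (Finset.sum_le_sum fun p _ => Finset.card_biUnion_le))).trans ?_
    push_cast
    refine (Finset.sum_le_sum fun p hp' =>
      Finset.sum_le_card_nsmul _ _ _ fun i _ => hp p hp' i).trans
      ?_
    rw [Finset.card_univ, Fintype.card_fin]
    simp only [nsmul_eq_mul, Nat.cast_add, Nat.cast_one, ← mul_assoc]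
    rw [← Finset.mul_sum, Finset.sum_add_distrib, ← Finset.mul_sum, Finset.sum_const, nsmul_eq_mul]
    refine mul_le_mul_of_nonneg_left (add_le_add ?_ ?_) (by positivity)
    · rw [div_eq_mul_inv]
      refine mul_le_mul_of_nonneg_left ((Finset.sum_le_sum_of_subset_of_nonneg
        (Finset.filter_subset _ _) fun p _ _ => by positivity).trans ?_) (by positivity)
      rcases le_or_gt M L with h | h
      · exact (sum_Ioc_inv_sq_le_sub (α := ℝ) (by omega) h).trans (sub_le_self _ (by positivity))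
      · rw [Finset.Ioc_eq_empty (by omega), Finset.sum_empty]
        positivity
    · rw [mul_comm]
      refine mul_le_mul_of_nonneg_left ?_ (by positivity)
      rw [← Nat.primesLE_card_eq_primeCounting]
      refine Nat.cast_le.mpr (Finset.card_le_card fun p hp => ?_)
      simp only [T, Finset.mem_filter, Finset.mem_Ioc] at hp
      exact Nat.mem_primesLE.mpr ⟨hp.1.2, hp.2⟩
  have h2 := hbound M B hM hB
  rw [Nat.add_sub_cancel] at h2
  have hcard := (Nat.cast_le (α := ℝ)).mpr ((Finset.card_le_card hsub).trans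
    (Finset.card_union_le _ _))
  push_cast at hcard
  have e1 : (0 : ℝ) ≤ (r + 1) * d * 3 ^ r * 2 := by positivity
  have e2 : (0 : ℝ) ≤ (B : ℝ) ^ r := by positivity
  have e3 : (0 : ℝ) ≤ (B : ℝ) ^ r * (Nat.primeCounting L : ℝ) := by positivity
  nlinarith [mul_nonneg hK e3, mul_nonneg e1 e2]

end FA.SquarefreeMulti
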