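import Fermat.Agent.Ekedahl.Density
import Fermat.Agent.SquarefreeMulti.Bound
import Fermat.Agent.SquarefreeValues.Sieve

/-!
# The density of squarefree values

The small primes are congruence conditions modulo `p ^ 2`, the middle ones are negligible, and
for degree at most two the primes above a multiple of `B` only meet the zeros.
-/

set_option autoImplicit false
set_option linter.style.openClassical false
set_option linter.style.haveILetI false

noncomputable section

open Filter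
open scoped Classical Topology

namespace FA.SquarefreeMulti

open MvPolynomial FA.ThinSets FA.DiagonalDensity FA.Ekedahl

variable {n r : ℕ} (f : MvPolynomial (Fin n) ℤ)

/-- The density of the points at which `p ^ 2` does not divide the value. -/
def sqFactor (p : ℕ) : ℝ := 1 - (Nat.card {c : Fin n → ZMod (p ^ 2) //
  eval c (f.map (Int.castRingHom (ZMod (p ^ 2)))) = 0} : ℝ) / ((p ^ 2 : ℕ) : ℝ) ^ n

/-- The product of the factors up to `P`. -/
def sqPartial (P : ℕ) : ℝ := ∏ p ∈ (P + 1).primesBelow, sqFactor f p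

/-- The product of all factors. -/
def sqDensity : ℝ := ⨅ P, sqPartial f P

/-- The points whose value no `p ^ 2`, `p ∈ T`, divides. -/
def sifted (T : Finset ℕ) (B : ℕ) : Finset (Fin n → ℤ) :=
  (intBox n B).filter fun x => ∀ p ∈ T, ¬(p : ℤ) ^ 2 ∣ eval x f

/-- The points with squarefree values. -/
def sfPoints (B : ℕ) : Finset (Fin n → ℤ) :=
  (intBox n B).filter fun x => Squarefree (eval x f)

variable {f}

theorem sqFactor_eq (p : ℕ) : sqFactor f p = localFactor f f (p ^ 2) := by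
  rw [sqFactor, localFactor, commonZeros]
  congr 3
  exact Nat.card_congr (Equiv.subtypeEquivRight fun c => (and_self_iff).symm)

theorem sqFactor_nonneg {p : ℕ} (hp : p.Prime) : 0 ≤ sqFactor f p := by
  haveI : NeZero (p ^ 2) := ⟨pow_ne_zero _ hp.ne_zero⟩
  rw [sqFactor_eq, ← classDensity_goodClasses]
  unfold classDensity
  positivity

theorem sqFactor_le_one (p : ℕ) : sqFactor f p ≤ 1 := sub_le_self _ (by positivity)

theorem sqPartial_nonneg (P : ℕ) : 0 ≤ sqPartial f P :=
  Finset.prod_nonneg fun _ hp => sqFactor_nonneg (Nat.prime_of_mem_primesBelow hp)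

theorem tendsto_sqPartial : Tendsto (sqPartial f) atTop (𝓝 (sqDensity f)) := by
  refine tendsto_atTop_ciInf (fun P Q hPQ => ?_)
    ⟨0, by rintro x ⟨P, rfl⟩; exact sqPartial_nonneg P⟩
  have hsub : (P + 1).primesBelow ⊆ (Q + 1).primesBelow := fun p hp => by
    rw [Nat.mem_primesBelow] at hp ⊢
    exact ⟨by omega, hp.2⟩
  unfold sqPartial
  rw [← Finset.prod_sdiff hsub]
  exact mul_le_of_le_one_left (sqPartial_nonneg P)
    (Finset.prod_le_one (fun p hp => sqFactor_nonneg
      (Nat.prime_of_mem_primesBelow (Finset.mem_sdiff.mp hp).1)) fun p _ => sqFactor_le_one p)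

/-- **Finitely many primes.** -/
theorem tendsto_sifted {T : Finset ℕ} (hT : ∀ p ∈ T, p.Prime) :
    Tendsto (fun B : ℕ => ((sifted f T B).card : ℝ) / (2 * (B : ℝ) + 1) ^ n) atTop
      (𝓝 (∏ p ∈ T, sqFactor f p)) := by
  obtain ⟨N, hN, S, -, hSd, hS⟩ := exists_classes 2 T hT fun p => goodClasses f f (p ^ 2)
  have h := tendsto_intBox_classes S
  rw [hSd, Finset.prod_congr rfl fun p hp => show classDensity (goodClasses f f (p ^ 2)) =
    sqFactor f p by
      haveI : NeZero (p ^ 2) := ⟨pow_ne_zero _ (hT p hp).ne_zero⟩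
      rw [sqFactor_eq, classDensity_goodClasses]] at h
  refine h.congr fun B => ?_
  congr 3
  ext x
  simp only [sifted, Finset.mem_filter, hS, reduce_mem_goodClasses, Nat.cast_pow, and_self]

theorem mem_sfPoints_iff {B : ℕ} {x : Fin n → ℤ} :
    x ∈ sfPoints f B ↔ x ∈ intBox n B ∧ ∀ p : ℕ, p.Prime → ¬(p : ℤ) ^ 2 ∣ eval x f := by
  rw [sfPoints, Finset.mem_filter]
  refine and_congr_right fun _ => ⟨fun h p hp hd => ?_, fun h => ?_⟩
  · exact SquarefreeValues.not_squarefree_of_sq_dvd hp hd h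
  · by_contra hne
    obtain ⟨p, hp, hd⟩ := SquarefreeValues.exists_sq_dvd hne
    exact h p hp hd

/-- The tail of the sieve is negligible. -/
theorem eventually_squareBad_le {f : MvPolynomial (Fin (r + 1)) ℤ}
    (hf : Squarefree (f.map (Int.castRingHom ℚ))) {δ : ℝ} (hδ : 0 < δ) :
    ∃ M₁ : ℕ, ∀ M, M₁ ≤ M → ∀ K : ℕ, ∀ᶠ B : ℕ in atTop,
      ((squareBad f M (K * B) B).card : ℝ) ≤ δ * (2 * (B : ℝ) + 1) ^ (r + 1) := by
  obtain ⟨C, hC, hbound⟩ := exists_squareBad_bound f hf
  obtain ⟨M₁, hM₁⟩ := eventually_atTop.mp ((tendsto_const_div_atTop_nhds_zero_nat C).eventually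
    (Iio_mem_nhds (by positivity : (0 : ℝ) < δ / 3)))
  refine ⟨max M₁ 1, fun M hM K => ?_⟩
  have h2 : ∀ᶠ B : ℕ in atTop, C / (B : ℝ) < δ / 3 :=
    (tendsto_const_div_atTop_nhds_zero_nat C).eventually (Iio_mem_nhds (by positivity))
  have h3 := SquarefreeValues.eventually_primeCounting_mul_le K
    (show 0 < δ / 3 / (C + 1) by positivity)
  filter_upwards [h2, h3, eventually_ge_atTop 1] with B hB2 hB3 hB1
  refine (hbound M (K * B) B (le_of_max_le_right hM) hB1).trans ?_
  have hB : (1 : ℝ) ≤ B := Nat.one_le_cast.mpr hB1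
  have hM' : C / (M : ℝ) ≤ δ / 3 := (hM₁ M (le_of_max_le_left hM)).le
  have hD : (B : ℝ) ^ (r + 1) ≤ (2 * (B : ℝ) + 1) ^ (r + 1) :=
    pow_le_pow_left₀ (by positivity) (by linarith) _
  have e2 : C * (Nat.primeCounting (K * B) : ℝ) ≤ δ / 3 * B := by
    refine (mul_le_mul_of_nonneg_left hB3 hC).trans ?_
    rw [div_mul_eq_mul_div, mul_div_assoc', div_le_iff₀ (by positivity)]
    nlinarith [mul_nonneg (div_nonneg hδ.le three_pos.le) (Nat.cast_nonneg (α := ℝ) B)]
  have e3 : C ≤ δ / 3 * B := by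
    rw [div_lt_iff₀ (by positivity)] at hB2
    exact hB2.le
  calc C * ((B : ℝ) ^ (r + 1) / M + (B : ℝ) ^ r * ((Nat.primeCounting (K * B) : ℝ) + 1))
      = C / M * (B : ℝ) ^ (r + 1) +
          (B : ℝ) ^ r * (C * (Nat.primeCounting (K * B) : ℝ) + C) := by ring
    _ ≤ δ / 3 * (B : ℝ) ^ (r + 1) + (B : ℝ) ^ r * (δ / 3 * B + δ / 3 * B) := by gcongr
    _ = δ * (B : ℝ) ^ (r + 1) := by ring
    _ ≤ _ := mul_le_mul_of_nonneg_left hD hδ.le

/-- **The upper bound in every degree.** -/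
theorem eventually_sfPoints_le {η : ℝ} (hη : 0 < η) :
    ∀ᶠ B : ℕ in atTop, ((sfPoints f B).card : ℝ) / (2 * (B : ℝ) + 1) ^ n ≤ sqDensity f + η := by
  obtain ⟨P, hP⟩ := ((tendsto_sqPartial (f := f)).eventually
    (Iio_mem_nhds (show sqDensity f < sqDensity f + η / 2 by linarith))).exists
  filter_upwards [(tendsto_sifted (f := f) (T := (P + 1).primesBelow)
    fun p hp => Nat.prime_of_mem_primesBelow hp).eventually
      (Iio_mem_nhds (show sqPartial f P < sqPartial f P + η / 2 by linarith))] with B hB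
  have hsub : sfPoints f B ⊆ sifted f (P + 1).primesBelow B := fun x hx => by
    obtain ⟨hx, h⟩ := mem_sfPoints_iff.mp hx
    exact Finset.mem_filter.mpr ⟨hx, fun p hp => h p (Nat.prime_of_mem_primesBelow hp)⟩
  refine (div_le_div_of_nonneg_right (Nat.cast_le.mpr (Finset.card_le_card hsub))
    (by positivity)).trans ?_
  linarith

/-- **The density in degree at most two.** -/
theorem tendsto_sfPoints {f : MvPolynomial (Fin (r + 1)) ℤ}
    (hf : Squarefree (f.map (Int.castRingHom ℚ))) (hd : f.totalDegree ≤ 2) :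
    Tendsto (fun B : ℕ => ((sfPoints f B).card : ℝ) / (2 * (B : ℝ) + 1) ^ (r + 1)) atTop
      (𝓝 (sqDensity f)) := by
  have hf0 : f ≠ 0 := fun h => hf.ne_zero (by rw [h, map_zero])
  rw [Metric.tendsto_atTop]
  intro ε hε
  obtain ⟨M₁, hM₁⟩ := eventually_squareBad_le hf (show 0 < ε / 4 by positivity)
  obtain ⟨P, hP1, hP2⟩ : ∃ P : ℕ, M₁ ≤ P ∧ dist (sqPartial f P) (sqDensity f) < ε / 4 :=
    ((eventually_ge_atTop _).and (tendsto_sqPartial.eventually
      (Metric.ball_mem_nhds _ (by positivity)))).exists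
  set H := ∑ s ∈ f.support, (f.coeff s).natAbs
  set K := H + 1
  have hzero : ∀ᶠ B : ℕ in atTop, ((f.totalDegree : ℝ) + 1) / (B : ℝ) < ε / 4 :=
    (tendsto_const_div_atTop_nhds_zero_nat _).eventually (Iio_mem_nhds (by positivity))
  obtain ⟨B₀, hB₀⟩ := eventually_atTop.mp (((tendsto_sifted (f := f) (T := (P + 1).primesBelow)
    fun p hp => Nat.prime_of_mem_primesBelow hp).eventually
      (Metric.ball_mem_nhds _ (show 0 < ε / 4 by positivity))).and
    ((hM₁ P hP1 K).and (hzero.and ((eventually_sfPoints_le (f := f) (η := ε / 2)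
      (by positivity)).and (eventually_ge_atTop 1)))))
  refine ⟨B₀, fun B hB => ?_⟩
  obtain ⟨h8, h6, h7, h4, hB1⟩ := hB₀ B hB
  have hD : (0 : ℝ) < (2 * (B : ℝ) + 1) ^ (r + 1) := by positivity
  set Z := (intBox (r + 1) B).filter fun x => eval x f = 0
  have hZ : (Z.card : ℝ) / (2 * (B : ℝ) + 1) ^ (r + 1) < ε / 4 := by
    have h : (Z.card : ℝ) * (2 * (B : ℝ) + 1) ≤
        f.totalDegree * (2 * (B : ℝ) + 1) ^ (r + 1) := by
      exact_mod_cast card_zeros_box_mul_le hf0 B
    rw [div_lt_iff₀ hD]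
    rw [div_lt_iff₀ (by positivity)] at h7
    nlinarith [mul_lt_mul_of_pos_right h7 hD]
  have hsub : sifted f (P + 1).primesBelow B ⊆
      sfPoints f B ∪ (squareBad f P (K * B) B ∪ Z) := fun x hx => by
    obtain ⟨hx, h⟩ := Finset.mem_filter.mp hx
    by_cases hz : eval x f = 0
    · exact Finset.mem_union_right _ (Finset.mem_union_right _ (Finset.mem_filter.mpr ⟨hx, hz⟩))
    by_cases hs : x ∈ squareBad f P (K * B) B
    · exact Finset.mem_union_right _ (Finset.mem_union_left _ hs)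
    refine Finset.mem_union_left _ (mem_sfPoints_iff.mpr ⟨hx, fun p hp hdvd => ?_⟩)
    rcases le_or_gt p P with hle | hlt
    · exact h p (Nat.mem_primesBelow.mpr ⟨Nat.lt_succ_of_le hle, hp⟩) hdvd
    rcases le_or_gt p (K * B) with hle | hlt'
    · exact hs (Finset.mem_filter.mpr ⟨hx, p, hp, hlt, hle, hdvd⟩)
    rw [← Nat.cast_pow, Int.natCast_dvd] at hdvd
    have h1 : p ^ 2 ≤ H * B ^ f.totalDegree :=
      (Nat.le_of_dvd (Int.natAbs_pos.mpr hz) hdvd).trans (natAbs_eval_le f hB1 hx)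
    have h2 : H * B ^ f.totalDegree ≤ H * B ^ 2 :=
      Nat.mul_le_mul_left _ (Nat.pow_le_pow_right hB1 hd)
    have h3 : (K * B) ^ 2 < p ^ 2 := Nat.pow_lt_pow_left hlt' two_ne_zero
    have h5 : H * B ^ 2 ≤ (K * B) ^ 2 := by
      rw [mul_pow]
      exact Nat.mul_le_mul_right _ ((Nat.le_succ H).trans (Nat.le_self_pow two_ne_zero _))
    omega
  have h5 := div_le_div_of_nonneg_right (c := (2 * (B : ℝ) + 1) ^ (r + 1))
    (Nat.cast_le (α := ℝ).mpr ((Finset.card_le_card hsub).trans ((Finset.card_union_le _ _).trans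
      (Nat.add_le_add_left (Finset.card_union_le _ _) _)))) hD.le
  push_cast at h5
  rw [add_div, add_div] at h5
  have h6' : ((squareBad f P (K * B) B).card : ℝ) / (2 * (B : ℝ) + 1) ^ (r + 1) ≤ ε / 4 := by
    rwa [div_le_iff₀ hD]
  have h8' := abs_lt.mp ((Real.dist_eq _ _).symm.trans_lt (Metric.mem_ball.mp h8))
  have h9 := abs_lt.mp ((Real.dist_eq _ _).symm.trans_lt hP2)
  unfold sqPartial at h9
  rw [Real.dist_eq, abs_lt]
  constructor <;> linarith

/-- **Positivity**, in every degree. -/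
theorem sqDensity_pos {f : MvPolynomial (Fin (r + 1)) ℤ}
    (hf : Squarefree (f.map (Int.castRingHom ℚ)))
    (hno : ∀ p : ℕ, p.Prime → ∃ x : Fin (r + 1) → ℤ, ¬(p : ℤ) ^ 2 ∣ eval x f) :
    0 < sqDensity f := by
  obtain ⟨M, hM⟩ := eventually_squareBad_le hf (show (0 : ℝ) < 1 / 2 by norm_num)
  have hfac : ∀ p : ℕ, p.Prime → 0 < sqFactor f p := fun p hp => by
    haveI : NeZero (p ^ 2) := ⟨pow_ne_zero _ hp.ne_zero⟩
    obtain ⟨x, hx⟩ := hno p hp
    rw [sqFactor_eq, ← classDensity_goodClasses]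
    haveI : Nonempty (goodClasses f f (p ^ 2)) :=
      ⟨⟨reduce (p ^ 2) x, reduce_mem_goodClasses.mpr fun h => hx (by
        have := h.1
        rwa [Nat.cast_pow] at this)⟩⟩
    exact div_pos (Nat.cast_pos.mpr Nat.card_pos)
      (pow_pos (Nat.cast_pos.mpr (pow_pos hp.pos 2)) _)
  have hpos : 0 < sqPartial f M :=
    Finset.prod_pos fun p hp => hfac p (Nat.prime_of_mem_primesBelow hp)
  refine lt_of_lt_of_le (mul_pos hpos one_half_pos)
    (ge_of_tendsto tendsto_sqPartial (eventually_atTop.mpr ⟨M, fun P hP => ?_⟩))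
  have hsub : (M + 1).primesBelow ⊆ (P + 1).primesBelow := fun p hp => by
    rw [Nat.mem_primesBelow] at hp ⊢
    exact ⟨by omega, hp.2⟩
  conv_rhs => rw [sqPartial, ← Finset.prod_sdiff hsub, mul_comm]
  refine mul_le_mul_of_nonneg_left ?_ hpos.le
  set T := (P + 1).primesBelow \ (M + 1).primesBelow
  have hT : ∀ p ∈ T, p.Prime ∧ M < p ∧ p ≤ P := fun p hp => by
    obtain ⟨hp1, hp2⟩ := Finset.mem_sdiff.mp hp
    have h1 := Nat.mem_primesBelow.mp hp1
    refine ⟨h1.2, ?_, by omega⟩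
    by_contra hlt
    exact hp2 (Nat.mem_primesBelow.mpr ⟨by omega, h1.2⟩)
  refine ge_of_tendsto (tendsto_sifted fun p hp => (hT p hp).1) ?_
  filter_upwards [hM M le_rfl P, eventually_ge_atTop 1] with B hB hB1
  have hD : (0 : ℝ) < (2 * (B : ℝ) + 1) ^ (r + 1) := by positivity
  have hcov : intBox (r + 1) B ⊆ sifted f T B ∪ squareBad f M (P * B) B := fun x hx => by
    by_cases h : ∀ p ∈ T, ¬(p : ℤ) ^ 2 ∣ eval x f
    · exact Finset.mem_union_left _ (Finset.mem_filter.mpr ⟨hx, h⟩)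
    · push Not at h
      obtain ⟨p, hp, hd⟩ := h
      exact Finset.mem_union_right _ (Finset.mem_filter.mpr ⟨hx, p, (hT p hp).1, (hT p hp).2.1,
        (hT p hp).2.2.trans (Nat.le_mul_of_pos_right P hB1), hd⟩)
  have h := (Nat.cast_le (α := ℝ)).mpr
    ((Finset.card_le_card hcov).trans (Finset.card_union_le _ _))
  rw [natCard_intBox, Nat.cast_add] at h
  rw [le_div_iff₀ hD]
  linarith

theorem sqDensity_eq_zero {p : ℕ} (hp : p.Prime)
    (hall : ∀ x : Fin n → ℤ, (p : ℤ) ^ 2 ∣ eval x f) : sqDensity f = 0 := by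
  haveI : NeZero (p ^ 2) := ⟨pow_ne_zero _ hp.ne_zero⟩
  have h0 : sqFactor f p = 0 := by
    have hempty : goodClasses f f (p ^ 2) = ∅ := Set.eq_empty_of_forall_notMem fun c hc => by
      have e : reduce (p ^ 2) (fun i => ((c i).val : ℤ)) = c := funext fun i => by simp [reduce]
      rw [← e, reduce_mem_goodClasses, Nat.cast_pow] at hc
      exact hc ⟨hall _, hall _⟩
    rw [sqFactor_eq, ← classDensity_goodClasses, hempty, classDensity]
    simp
  refine le_antisymm ?_ (le_ciInf sqPartial_nonneg)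
  refine (ciInf_le ⟨0, by rintro x ⟨P, rfl⟩; exact sqPartial_nonneg P⟩ p).trans_eq ?_
  exact Finset.prod_eq_zero (Nat.mem_primesBelow.mpr ⟨Nat.lt_succ_self p, hp⟩) h0

end FA.SquarefreeMulti
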